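import Mathlib
import Fermat.Prelude.Def_ModularCurve_X0ModL
import Fermat.Agent.H27.Igusa.Defs

/-!
# P-ORD (S33), row ORD-B1-CUSPINT (helper88): the abstract core

`t`-order bounds for Laurent series (`GeOrd`), the coefficient bound for a product of linear
factors with roots of bounded pole order, the exact pole order of `c(j(t^p))` for `c ∈ ℤ[X]`,
and the reflected polynomial.

Main results (all over a field `K` of characteristic `0`):

* `ci_natDegree_le` : if `Φ ∈ ℤ[X][Y]` and `Φ(j(t^p), Y) = ∏ (Y - r)` with all roots `r` of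
  `t`-order `≥ -p²`, then `deg_X (coeff_{Y^i} Φ) ≤ p (n - i)`, `n` the number of roots;
* `ci_reflected_root` : then `j(t^{p²}) / j(t^p)^p` is a root of the reflected polynomial
  `ciRefl p n Φ`, evaluated at `X = 1 / j(t^p)`;
* `ciRefl_monic`.
-/

set_option autoImplicit false
set_option linter.style.haveILetI false

noncomputable section

open ModularCurve Polynomial Fermat.Agent.H27

namespace Fermat.Agent.H88.ORD

section GeOrd

variable {K : Type*} [Field K]

/-- `g` has `t`-order at least `m`. -/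
def GeOrd (g : LaurentSeries K) (m : ℤ) : Prop := ∀ k : ℤ, k < m → g.coeff k = 0

theorem geOrd_iff (g : LaurentSeries K) (m : ℤ) :
    GeOrd g m ↔ (m : WithTop ℤ) ≤ g.orderTop := by
  rw [HahnSeries.le_orderTop_iff_forall]
  constructor
  · intro h j hj
    exact h j (WithTop.coe_lt_coe.mp hj)
  · intro h k hk
    exact h k (WithTop.coe_lt_coe.mpr hk)

theorem geOrd_zero (m : ℤ) : GeOrd (0 : LaurentSeries K) m := fun _ _ => rfl

theorem geOrd_one : GeOrd (1 : LaurentSeries K) 0 := by
  intro k hk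
  rw [HahnSeries.coeff_one, if_neg (ne_of_lt hk)]

theorem GeOrd.mono {g : LaurentSeries K} {m m' : ℤ} (h : GeOrd g m) (hm : m' ≤ m) :
    GeOrd g m' := fun k hk => h k (lt_of_lt_of_le hk hm)

theorem GeOrd.sub {g h : LaurentSeries K} {m : ℤ} (hg : GeOrd g m) (hh : GeOrd h m) :
    GeOrd (g - h) m := by
  intro k hk
  rw [HahnSeries.coeff_sub, hg k hk, hh k hk, sub_zero]

theorem GeOrd.mul {g h : LaurentSeries K} {m n : ℤ} (hg : GeOrd g m) (hh : GeOrd h n) :
    GeOrd (g * h) (m + n) := by
  rw [geOrd_iff] at hg hh ⊢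
  rw [HahnSeries.orderTop_mul]
  push_cast
  exact add_le_add hg hh

theorem geOrd_qExpand (p : ℕ) [NeZero p] {g : LaurentSeries K} {m : ℤ} (hg : GeOrd g m) :
    GeOrd (qExpand K p g) ((p : ℤ) * m) := by
  intro k hk
  by_cases hd : (p : ℤ) ∣ k
  · obtain ⟨k', rfl⟩ := hd
    rw [qExpand_coeff_mul]
    apply hg
    have hp : (0 : ℤ) < p := by exact_mod_cast Nat.pos_of_ne_zero (NeZero.ne p)
    exact lt_of_mul_lt_mul_left hk hp.le
  · exact qExpand_coeff_of_not_dvd p g hd

theorem geOrd_jqModC : GeOrd (jqModC K) (-1) := fun _ hk => coeff_jqModC_of_lt K hk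

theorem geOrd_twist (ζ : Kˣ) {g : LaurentSeries K} {m : ℤ} (hg : GeOrd g m) :
    GeOrd (twist ζ g) m := by
  intro k hk
  rw [twist_coeff, hg k hk, mul_zero]

theorem geOrd_baseS (p : ℕ) [NeZero p] : GeOrd (baseS K p) (-(p : ℤ)) := by
  have := geOrd_qExpand p (geOrd_jqModC (K := K))
  rw [mul_neg, mul_one] at this
  exact this

theorem geOrd_rootInf (p : ℕ) [NeZero p] : GeOrd (rootInf K p) (-((p : ℤ) * p)) := by
  have := geOrd_qExpand p (geOrd_baseS (K := K) p)
  rw [mul_neg] at this
  exact this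

theorem geOrd_rootFin (p : ℕ) [NeZero p] (ζ : Kˣ) : GeOrd (rootFin ζ) (-((p : ℤ) * p)) := by
  refine (geOrd_twist ζ (geOrd_jqModC (K := K))).mono ?_
  have hp : (1 : ℤ) ≤ p := by exact_mod_cast Nat.pos_of_ne_zero (NeZero.ne p)
  nlinarith

end GeOrd

section Bound

variable {K : Type*} [Field K]

/-- the coefficient bound `ord (coeff_i f) ≥ -w (n - i)` -/
def CoeffBd (w : ℤ) (f : Polynomial (LaurentSeries K)) (n : ℤ) : Prop :=
  ∀ i : ℕ, GeOrd (f.coeff i) (-w * (n - i))

theorem coeffBd_one (w : ℤ) : CoeffBd w (1 : Polynomial (LaurentSeries K)) 0 := by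
  intro i
  rw [Polynomial.coeff_one]
  split_ifs with h
  · subst h
    simpa using geOrd_one (K := K)
  · exact geOrd_zero _

theorem CoeffBd.step {w : ℤ} {f : Polynomial (LaurentSeries K)} {n : ℤ} (hf : CoeffBd w f n)
    {r : LaurentSeries K} (hr : GeOrd r (-w)) :
    CoeffBd w ((Polynomial.X - Polynomial.C r) * f) (n + 1) := by
  intro i
  rw [sub_mul, Polynomial.coeff_sub, Polynomial.coeff_C_mul]
  apply GeOrd.sub
  · cases i with
    | zero =>
      rw [Polynomial.coeff_X_mul_zero]
      exact geOrd_zero _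
    | succ j =>
      rw [Polynomial.coeff_X_mul]
      have := hf j
      convert this using 1
      push_cast
      ring
  · have := hr.mul (hf i)
    convert this using 1
    ring

theorem coeffBd_prod (w : ℤ) {ι : Type*} (s : Finset ι) (r : ι → LaurentSeries K)
    (hr : ∀ b ∈ s, GeOrd (r b) (-w)) :
    CoeffBd w (∏ b ∈ s, (Polynomial.X - Polynomial.C (r b))) s.card := by
  classical
  induction s using Finset.induction_on with
  | empty => simpa using coeffBd_one (K := K) w
  | insert a s ha ih =>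
    rw [Finset.prod_insert ha, Finset.card_insert_of_notMem ha]
    have := (ih (fun b hb => hr b (Finset.mem_insert_of_mem hb))).step
      (hr a (Finset.mem_insert_self a s))
    push_cast
    exact this

/-- the coefficient of `c(j(t^p))` at `t^(-p deg c)` is the leading coefficient of `c` -/
theorem coeff_evalAt_baseS (p : ℕ) [NeZero p] (c : Polynomial ℤ) :
    (evalAt (baseS K p) c).coeff (-((p : ℤ) * c.natDegree)) = ((c.leadingCoeff : ℤ) : K) := by
  have h1 : evalAt (baseS K p) c =
      ∑ k ∈ Finset.range (c.natDegree + 1),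
        HahnSeries.C ((c.coeff k : ℤ) : K) * qExpand K p (jqModC K ^ k) := by
    change Polynomial.eval₂ (Int.castRingHom (LaurentSeries K)) (baseS K p) c = _
    rw [Polynomial.eval₂_eq_sum_range]
    refine Finset.sum_congr rfl fun k _ => ?_
    rw [baseS, map_pow, eq_intCast, map_intCast]
  rw [h1, HahnSeries.coeff_sum, Finset.sum_eq_single c.natDegree]
  · rw [HahnSeries.C_mul_eq_smul, HahnSeries.coeff_smul, ← mul_neg, qExpand_coeff_mul,
      coeff_jqModC_pow_self, smul_eq_mul, mul_one]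
    rfl
  · intro k hk hkn
    have hlt : k < c.natDegree := lt_of_le_of_ne (Nat.lt_succ_iff.mp (Finset.mem_range.mp hk)) hkn
    rw [HahnSeries.C_mul_eq_smul, HahnSeries.coeff_smul, ← mul_neg, qExpand_coeff_mul,
      coeff_jqModC_pow_of_lt K (by exact_mod_cast neg_lt_neg (by exact_mod_cast hlt)), smul_zero]
  · intro h
    exact absurd (Finset.mem_range.mpr (Nat.lt_succ_self _)) h

/-- the degree bound from the order bound -/
theorem ci_natDegree_le [CharZero K] (p : ℕ) [NeZero p] (c : Polynomial ℤ) (d : ℕ)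
    (h : GeOrd (evalAt (baseS K p) c) (-((p : ℤ) * p) * d)) : c.natDegree ≤ p * d := by
  by_contra hcon
  push Not at hcon
  have hc0 : c ≠ 0 := by
    rintro rfl
    simp at hcon
  have hp : (0 : ℤ) < p := by exact_mod_cast Nat.pos_of_ne_zero (NeZero.ne p)
  have hlt : -((p : ℤ) * c.natDegree) < -((p : ℤ) * p) * d := by
    have h1 : ((p * d : ℕ) : ℤ) < (c.natDegree : ℤ) := by exact_mod_cast hcon
    push_cast at h1
    nlinarith
  have h0 := h _ hlt
  rw [coeff_evalAt_baseS] at h0
  exact Polynomial.leadingCoeff_ne_zero.mpr hc0 (by exact_mod_cast h0)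

end Bound

section Reflect

variable {K : Type*} [Field K]

/-- the reflected polynomial: the coefficient of `Y^i` is reflected in degree `p (n - i)` -/
def ciRefl (p n : ℕ) (Φ : Polynomial (Polynomial ℤ)) : Polynomial (Polynomial ℤ) :=
  ∑ i ∈ Finset.range (n + 1),
    Polynomial.monomial i (Polynomial.reflect (p * (n - i)) (Φ.coeff i))

theorem ciRefl_coeff (p n : ℕ) (Φ : Polynomial (Polynomial ℤ)) (i : ℕ) (hi : i ≤ n) :
    (ciRefl p n Φ).coeff i = Polynomial.reflect (p * (n - i)) (Φ.coeff i) := by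
  rw [ciRefl, Polynomial.finsetSum_coeff, Finset.sum_eq_single i]
  · rw [Polynomial.coeff_monomial, if_pos rfl]
  · intro k _ hk
    rw [Polynomial.coeff_monomial, if_neg hk]
  · intro h
    exact absurd (Finset.mem_range.mpr (Nat.lt_succ_of_le hi)) h

theorem ciRefl_natDegree_le (p n : ℕ) (Φ : Polynomial (Polynomial ℤ)) :
    (ciRefl p n Φ).natDegree ≤ n := by
  rw [ciRefl]
  refine Polynomial.natDegree_sum_le_of_forall_le _ _ fun i hi => ?_
  exact (Polynomial.natDegree_monomial_le _).trans (Nat.lt_succ_iff.mp (Finset.mem_range.mp hi))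

theorem ciRefl_monic (p n : ℕ) (Φ : Polynomial (Polynomial ℤ)) (h : Φ.coeff n = 1) :
    (ciRefl p n Φ).Monic := by
  refine Polynomial.monic_of_natDegree_le_of_coeff_eq_one n (ciRefl_natDegree_le p n Φ) ?_
  rw [ciRefl_coeff p n Φ n le_rfl, h, Nat.sub_self, Nat.mul_zero]
  have : (1 : Polynomial ℤ) = Polynomial.C 1 := by simp
  rw [this, Polynomial.reflect_C]
  simp

theorem evalAt_reflect {x : LaurentSeries K} (hx : x ≠ 0) (N : ℕ) (c : Polynomial ℤ)
    (hc : c.natDegree ≤ N) :
    evalAt x⁻¹ (Polynomial.reflect N c) = evalAt x c * (x⁻¹) ^ N := by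
  letI : Invertible x := invertibleOfNonzero hx
  have h := Polynomial.eval₂_reflect_mul_pow (Int.castRingHom (LaurentSeries K)) x N c hc
  rw [invOf_eq_inv] at h
  change Polynomial.eval₂ _ _ _ = Polynomial.eval₂ _ _ _ * _
  rw [← h, mul_assoc, ← mul_pow, mul_inv_cancel₀ hx, one_pow, mul_one]

/-- the root of the reflected polynomial -/
theorem ci_reflected_root (p n : ℕ) (Φ : Polynomial (Polynomial ℤ)) (hn : Φ.natDegree ≤ n)
    (x R : LaurentSeries K) (hx : x ≠ 0)
    (hdeg : ∀ i ≤ n, (Φ.coeff i).natDegree ≤ p * (n - i))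
    (hroot : (Φ.map (evalAt x)).eval R = 0) :
    ((ciRefl p n Φ).map (evalAt x⁻¹)).eval (R * (x⁻¹) ^ p) = 0 := by
  have h1 : ((ciRefl p n Φ).map (evalAt x⁻¹)).eval (R * (x⁻¹) ^ p) =
      ∑ i ∈ Finset.range (n + 1),
        (x⁻¹) ^ (p * n) * (evalAt x (Φ.coeff i) * R ^ i) := by
    rw [ciRefl, Polynomial.map_sum, Polynomial.eval_finsetSum]
    refine Finset.sum_congr rfl fun i hi => ?_
    have hin : i ≤ n := Nat.lt_succ_iff.mp (Finset.mem_range.mp hi)
    rw [Polynomial.map_monomial, Polynomial.eval_monomial,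
      evalAt_reflect hx _ _ (hdeg i hin), mul_pow, ← pow_mul]
    have hexp : p * n = p * (n - i) + p * i := by
      rw [← Nat.mul_add, Nat.sub_add_cancel hin]
    rw [hexp, pow_add]
    ring
  rw [h1, ← Finset.mul_sum]
  have h2 : (Φ.map (evalAt x)).eval R =
      ∑ i ∈ Finset.range (n + 1), evalAt x (Φ.coeff i) * R ^ i := by
    rw [Polynomial.eval_eq_sum_range' (n := n + 1)
      (lt_of_le_of_lt (Polynomial.natDegree_map_le.trans hn) (Nat.lt_succ_self n))]
    refine Finset.sum_congr rfl fun i _ => ?_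
    rw [Polynomial.coeff_map]
  rw [← h2, hroot, mul_zero]

end Reflect

end Fermat.Agent.H88.ORD
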