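import Fermat.Agent.H19.ORD.CuspIntDefs
import Fermat.Agent.H32.IgusaRelations
import Fermat.Agent.H17.HeckeDataComplex
import Fermat.Agent.H88.ORD.CuspIntCore

/-!
# P-ORD (S33), row ORD-B1-CUSPINT (helper88): `j(q^p) / j(q)^p` is integral over `ℤ[1 / j]`

`cuspInt : Fermat.Agent.H19.ORD.CuspIntStatement`.

Proof: the modular polynomial `Φ` of the formal Hecke data over `ℂ`
(`Fermat.Agent.H17.hasHeckeData_complex`) factors over `ℂ((t))` with base `X = j(t^p)` into
linear factors whose roots have `t`-order `≥ -p²`; hence the coefficient of `Y^i` has `t`-order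
`≥ -p² (p + 1 - i)` and so `X`-degree `≤ p (p + 1 - i)`.  The reflected polynomial
`Fermat.Agent.H88.ORD.ciRefl` is monic and kills `j(t^{p²}) / j(t^p)^p` at `X = 1 / j(t^p)`;
undo `t ↦ t^p` and descend from `ℂ` to `ℚ`.
-/

set_option autoImplicit false

noncomputable section

open ModularCurve Polynomial Fermat.Agent.H27

namespace Fermat.Agent.H88.ORD

/-- the degree bounds for the modular polynomial of formal Hecke data over `ℂ` -/
theorem ci_heckeData_natDegree_le {p : ℕ} [NeZero p] {ζ : ℂˣ} (D : HeckeDataOver p ℂ ζ)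
    (i : ℕ) (hi : i ≤ p + 1) : (D.Φ.coeff i).natDegree ≤ p * (p + 1 - i) := by
  have hbd : CoeffBd ((p : ℤ) * p) (D.Φ.map (evalAt (baseS ℂ p))) ((p : ℤ) + 1) := by
    rw [D.Φ_factor]
    have h1 := coeffBd_prod (K := ℂ) ((p : ℤ) * p) (Finset.range p)
      (fun b => rootFin (ζ ^ b)) (fun b _ => geOrd_rootFin p _)
    have h2 := h1.step (geOrd_rootInf (K := ℂ) p)
    rw [Finset.card_range] at h2
    exact h2
  apply ci_natDegree_le (K := ℂ) p
  have := hbd i
  rw [Polynomial.coeff_map] at this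
  convert this using 1
  push_cast [Nat.cast_sub hi]
  ring

/-- the relation over `ℂ((t))`, with base `j(t^p)` -/
theorem ci_relation_complex {p : ℕ} [NeZero p] {ζ : ℂˣ} (D : HeckeDataOver p ℂ ζ) :
    ((ciRefl p (p + 1) D.Φ).map (evalAt (baseS ℂ p)⁻¹)).eval
      (rootInf ℂ p * ((baseS ℂ p)⁻¹) ^ p) = 0 := by
  have hx : baseS ℂ p ≠ 0 :=
    (map_ne_zero_iff _ (qExpand_injective (R := ℂ) p)).mpr (jqModC_ne_zero_of_nontrivial ℂ)
  have hroot : (D.Φ.map (evalAt (baseS ℂ p))).eval (rootInf ℂ p) = 0 := by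
    rw [D.Φ_factor, Polynomial.eval_mul, Polynomial.eval_sub, Polynomial.eval_X,
      Polynomial.eval_C, sub_self, zero_mul]
  exact ci_reflected_root p (p + 1) D.Φ D.Φ_natDegree.le _ _ hx
    (fun i hi => ci_heckeData_natDegree_le D i hi) hroot

/-- **[CUSP-INT]** `j(q^p) / j(q)^p` is integral over `ℤ[1 / j]`. -/
theorem cuspInt : Fermat.Agent.H19.ORD.CuspIntStatement := by
  intro p _ hp
  have hprim : IsPrimitiveRoot (Complex.exp (2 * Real.pi * Complex.I / p)) p :=
    Complex.isPrimitiveRoot_exp p (NeZero.ne p)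
  obtain ⟨D⟩ := Fermat.Agent.H17.hasHeckeData_complex p hp
    (hprim.isUnit (NeZero.ne p)).unit (by simpa using hprim)
  refine ⟨ciRefl p (p + 1) D.Φ, ciRefl_monic p (p + 1) D.Φ ?_, ?_⟩
  · have := D.Φ_monic
    rw [Polynomial.Monic, Polynomial.leadingCoeff, D.Φ_natDegree] at this
    exact this
  · have hinj : Function.Injective (coeffMap (algebraMap ℚ ℂ)) :=
      Fermat.Agent.H67.coeffMap_injective_of_injective _ (algebraMap ℚ ℂ).injective
    have hj : coeffMap (algebraMap ℚ ℂ) jq = jqModC ℂ := by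
      rw [← jqModC_rat, coeffMap_jqModC]
    apply hinj
    apply qExpand_injective (R := ℂ) p
    rw [map_zero, map_zero, Fermat.Agent.H32.coeffMap_eval_map_evalAt,
      Fermat.Agent.H32.qExpand_eval_map_evalAt, map_mul, map_mul, map_pow, map_pow,
      map_inv₀, map_inv₀, coeffMap_qExpand, hj]
    exact ci_relation_complex D

end Fermat.Agent.H88.ORD
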